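import Mathlib

set_option autoImplicit false

/-!
# Sophie Germain's theorem and the first case of Fermat's Last Theorem for `p = 5, 7, 11, 13`

Integers only.  For an odd prime `p` and an auxiliary prime `θ` such that
* `x ^ p + y ^ p + z ^ p = 0` in `ZMod θ` forces `x * y * z = 0`, and
* `p` is not a `p`-th power in `ZMod θ`,
every solution of `a ^ p + b ^ p = c ^ p` in coprime integers has `p ∣ a * b * c`.
-/

namespace Fermat.Agent.FLTp

open Finset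

/-- The cofactor `(y ^ p + z ^ p) / (y + z)` for odd `p`. -/
def sgPhi (p : ℕ) (y z : ℤ) : ℤ := ∑ i ∈ range p, y ^ i * (-z) ^ (p - 1 - i)

theorem sgPhi_mul (p : ℕ) (hp : Odd p) (y z : ℤ) : sgPhi p y z * (y + z) = y ^ p + z ^ p := by
  have h := geom_sum₂_mul y (-z) p
  rw [sub_neg_eq_add, hp.neg_pow, sub_neg_eq_add] at h
  exact h

/-- Modulo `y + z` the cofactor is `p * y ^ (p - 1)`. -/
theorem add_dvd_sgPhi_sub (p : ℕ) (y z : ℤ) : y + z ∣ sgPhi p y z - p * y ^ (p - 1) := by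
  have h1 : (p : ℤ) * y ^ (p - 1) = ∑ _i ∈ range p, y ^ (p - 1) := by
    rw [sum_const, card_range, nsmul_eq_mul]
  rw [h1, sgPhi, ← sum_sub_distrib]
  refine dvd_sum fun i hi => ?_
  have hi' : i < p := mem_range.mp hi
  have h2 : y ^ (p - 1) = y ^ i * y ^ (p - 1 - i) := by
    rw [← pow_add]
    congr 1
    omega
  rw [h2, ← mul_sub]
  refine Dvd.dvd.mul_left ?_ _
  have h3 := sub_dvd_pow_sub_pow (-z) y (p - 1 - i)
  have h4 : y + z ∣ -z - y := ⟨-1, by ring⟩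
  exact h4.trans h3

theorem sgPhi_zmod_of_add_eq_zero (p θ : ℕ) (y z : ℤ) (h : ((y + z : ℤ) : ZMod θ) = 0) :
    ((sgPhi p y z : ℤ) : ZMod θ) = (p : ZMod θ) * (y : ZMod θ) ^ (p - 1) := by
  have h1 : (θ : ℤ) ∣ y + z := (ZMod.intCast_zmod_eq_zero_iff_dvd _ _).mp h
  have h2 := h1.trans (add_dvd_sgPhi_sub p y z)
  have h3 := (ZMod.intCast_zmod_eq_zero_iff_dvd _ _).mpr h2
  push_cast at h3
  exact sub_eq_zero.mp h3

theorem sgPhi_zmod_of_eq_zero (p θ : ℕ) (hp : Odd p) (x y : ℤ) (h : ((x : ℤ) : ZMod θ) = 0) :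
    ((sgPhi p x y : ℤ) : ZMod θ) = (y : ZMod θ) ^ (p - 1) := by
  obtain ⟨k, hk⟩ := hp
  rw [sgPhi]
  push_cast
  rw [sum_eq_single 0]
  · rw [pow_zero, one_mul, Nat.sub_zero, hk, Nat.add_sub_cancel, Even.neg_pow ⟨k, by ring⟩]
  · intro i _ hi
    rw [h, zero_pow hi, zero_mul]
  · intro h0
    exact absurd (mem_range.mpr (by omega)) h0

/-- Coprimality of the two factors of `y ^ p + z ^ p`. -/
theorem isCoprime_add_sgPhi (p : ℕ) [hp : Fact p.Prime] (hp2 : p ≠ 2) {x y z : ℤ}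
    (hyz : IsCoprime y z) (h : x ^ p + y ^ p + z ^ p = 0) (hx : ¬ (p : ℤ) ∣ x) :
    IsCoprime (y + z) (sgPhi p y z) := by
  have hodd : Odd p := hp.out.odd_of_ne_two hp2
  rw [Int.isCoprime_iff_gcd_eq_one]
  by_contra hne
  obtain ⟨ℓ, hℓ, hdvd⟩ := Nat.exists_prime_and_dvd hne
  have h1 : (ℓ : ℤ) ∣ y + z := (Int.natCast_dvd_natCast.mpr hdvd).trans (Int.gcd_dvd_left _ _)
  have h2 : (ℓ : ℤ) ∣ sgPhi p y z := (Int.natCast_dvd_natCast.mpr hdvd).trans (Int.gcd_dvd_right _ _)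
  have hℓ' : Prime (ℓ : ℤ) := Nat.prime_iff_prime_int.mp hℓ
  have h3 : (ℓ : ℤ) ∣ (p : ℤ) * y ^ (p - 1) := by
    have := dvd_sub h2 (h1.trans (add_dvd_sgPhi_sub p y z))
    rwa [sub_sub_cancel] at this
  rcases hℓ'.dvd_or_dvd h3 with h4 | h4
  · -- ℓ = p, then p ∣ y + z ∣ y^p + z^p = -x^p
    have h5 : ℓ = p := (Nat.prime_dvd_prime_iff_eq hℓ hp.out).mp (Int.natCast_dvd_natCast.mp h4)
    subst h5
    have h6 : (ℓ : ℤ) ∣ y ^ ℓ + z ^ ℓ := by
      rw [← sgPhi_mul ℓ hodd]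
      exact Dvd.dvd.mul_left h1 _
    have h7 : (ℓ : ℤ) ∣ x ^ ℓ := by
      have : x ^ ℓ = -(y ^ ℓ + z ^ ℓ) := by linarith
      rw [this]
      exact (dvd_neg).mpr h6
    exact hx (hℓ'.dvd_of_dvd_pow h7)
  · have h5 : (ℓ : ℤ) ∣ y := hℓ'.dvd_of_dvd_pow h4
    have h6 : (ℓ : ℤ) ∣ z := by
      have := dvd_sub h1 h5
      rwa [add_sub_cancel_left] at this
    exact hℓ'.not_isUnit (hyz.isUnit_of_dvd' h5 h6)

/-- `y + z` and the cofactor are both `p`-th powers. -/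
theorem exists_pow_eq (p : ℕ) [hp : Fact p.Prime] (hp2 : p ≠ 2) {x y z : ℤ}
    (hyz : IsCoprime y z) (h : x ^ p + y ^ p + z ^ p = 0) (hx : ¬ (p : ℤ) ∣ x) :
    (∃ a : ℤ, y + z = a ^ p) ∧ ∃ α : ℤ, sgPhi p y z = α ^ p := by
  have hodd : Odd p := hp.out.odd_of_ne_two hp2
  have hcop := isCoprime_add_sgPhi p hp2 hyz h hx
  have hmul : (y + z) * sgPhi p y z = (-x) ^ p := by
    rw [mul_comm, sgPhi_mul p hodd, hodd.neg_pow]
    linarith
  exact Int.eq_pow_of_mul_eq_pow_odd hcop hodd hmul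

/-- Reduction of the first Sophie Germain condition to the (small) set of `p`-th powers. -/
theorem sg_cond_of_list (p θ : ℕ) (hp0 : p ≠ 0) (hθ : θ.Prime) (S : List (ZMod θ))
    (hS : ∀ x : ZMod θ, x ^ p ∈ S)
    (hS3 : ∀ u ∈ S, ∀ v ∈ S, ∀ w ∈ S, u + v + w = 0 → u * v * w = 0) :
    ∀ x y z : ZMod θ, x ^ p + y ^ p + z ^ p = 0 → x * y * z = 0 := by
  have : Fact θ.Prime := ⟨hθ⟩
  intro x y z h
  have h3 := hS3 _ (hS x) _ (hS y) _ (hS z) h
  rw [← mul_pow, ← mul_pow] at h3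
  exact (pow_eq_zero_iff hp0).mp h3

theorem sg_cond1_five : ∀ x y z : ZMod 11, x ^ 5 + y ^ 5 + z ^ 5 = 0 → x * y * z = 0 :=
  sg_cond_of_list 5 11 (by norm_num) (by norm_num) [0, 1, -1] (by decide) (by decide)

theorem sg_cond2_five : ∀ u : ZMod 11, u ^ 5 ≠ ((5 : ℕ) : ZMod 11) := by decide

set_option maxRecDepth 100000 in
theorem sg_cond1_seven : ∀ x y z : ZMod 29, x ^ 7 + y ^ 7 + z ^ 7 = 0 → x * y * z = 0 :=
  sg_cond_of_list 7 29 (by norm_num) (by norm_num) [0, 1, -1, 12, 17] (by decide) (by decide)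

set_option maxRecDepth 100000 in
theorem sg_cond2_seven : ∀ u : ZMod 29, u ^ 7 ≠ ((7 : ℕ) : ZMod 29) := by decide

theorem sg_cond1_eleven : ∀ x y z : ZMod 23, x ^ 11 + y ^ 11 + z ^ 11 = 0 → x * y * z = 0 :=
  sg_cond_of_list 11 23 (by norm_num) (by norm_num) [0, 1, -1] (by decide) (by decide)

set_option maxRecDepth 100000 in
theorem sg_cond2_eleven : ∀ u : ZMod 23, u ^ 11 ≠ ((11 : ℕ) : ZMod 23) := by decide

set_option maxRecDepth 100000 in
theorem sg_cond1_thirteen : ∀ x y z : ZMod 53, x ^ 13 + y ^ 13 + z ^ 13 = 0 → x * y * z = 0 :=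
  sg_cond_of_list 13 53 (by norm_num) (by norm_num) [0, 1, -1, 23, 30] (by decide) (by decide)

set_option maxRecDepth 100000 in
theorem sg_cond2_thirteen : ∀ u : ZMod 53, u ^ 13 ≠ ((13 : ℕ) : ZMod 53) := by decide

variable (p θ : ℕ) [hp : Fact p.Prime] [hθ : Fact θ.Prime]

/-- The heart of Sophie Germain's argument: the auxiliary prime cannot divide `x`. -/
theorem sg_key (hp2 : p ≠ 2)
    (h1 : ∀ x y z : ZMod θ, x ^ p + y ^ p + z ^ p = 0 → x * y * z = 0)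
    (h2 : ∀ u : ZMod θ, u ^ p ≠ (p : ZMod θ))
    {x y z : ℤ} (hxy : IsCoprime x y) (hyz : IsCoprime y z) (hzx : IsCoprime z x)
    (h : x ^ p + y ^ p + z ^ p = 0)
    (hx : ¬ (p : ℤ) ∣ x) (hy : ¬ (p : ℤ) ∣ y) (hz : ¬ (p : ℤ) ∣ z)
    (hθx : (θ : ℤ) ∣ x) : False := by
  have hodd : Odd p := hp.out.odd_of_ne_two hp2
  have hθ' : Prime (θ : ℤ) := Nat.prime_iff_prime_int.mp hθ.out
  have hx0 : ((x : ℤ) : ZMod θ) = 0 := (ZMod.intCast_zmod_eq_zero_iff_dvd _ _).mpr hθx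
  -- θ does not divide y, z
  have hθy : ¬ (θ : ℤ) ∣ y := fun hd => hθ'.not_isUnit (hxy.isUnit_of_dvd' hθx hd)
  have hθz : ¬ (θ : ℤ) ∣ z := fun hd => hθ'.not_isUnit (hzx.isUnit_of_dvd' hd hθx)
  have hy0 : ((y : ℤ) : ZMod θ) ≠ 0 := fun h0 => hθy ((ZMod.intCast_zmod_eq_zero_iff_dvd _ _).mp h0)
  -- the three factorisations
  have hyzx : y ^ p + z ^ p + x ^ p = 0 := by linarith
  have hzxy : z ^ p + x ^ p + y ^ p = 0 := by linarith
  obtain ⟨⟨a, ha⟩, ⟨α, hα⟩⟩ := exists_pow_eq p hp2 hyz h hx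
  obtain ⟨⟨b, hb⟩, -⟩ := exists_pow_eq p hp2 hzx hyzx hy
  obtain ⟨⟨c, hc⟩, ⟨γ, hγ⟩⟩ := exists_pow_eq p hp2 hxy hzxy hz
  -- b^p + c^p + (-a)^p = 2x ≡ 0
  have hsum : ((b : ℤ) : ZMod θ) ^ p + (c : ZMod θ) ^ p + ((-a : ℤ) : ZMod θ) ^ p = 0 := by
    have e : b ^ p + c ^ p + (-a) ^ p = 2 * x := by
      rw [hodd.neg_pow, ← ha, ← hb, ← hc]
      ring
    have := congrArg (Int.cast : ℤ → ZMod θ) e
    push_cast at this
    rw [hx0, mul_zero] at this
    push_cast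
    exact this
  have habc := h1 _ _ _ hsum
  have hb0 : ((b : ℤ) : ZMod θ) ≠ 0 := by
    intro h0
    have : (θ : ℤ) ∣ z + x := by
      rw [hb]
      exact Dvd.dvd.pow ((ZMod.intCast_zmod_eq_zero_iff_dvd _ _).mp h0) hp.out.ne_zero
    have hz' := dvd_sub this hθx
    rw [add_sub_cancel_right] at hz'
    exact hθz hz'
  have hc0 : ((c : ℤ) : ZMod θ) ≠ 0 := by
    intro h0
    have : (θ : ℤ) ∣ x + y := by
      rw [hc]
      exact Dvd.dvd.pow ((ZMod.intCast_zmod_eq_zero_iff_dvd _ _).mp h0) hp.out.ne_zero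
    have hy' := dvd_sub this hθx
    rw [add_sub_cancel_left] at hy'
    exact hθy hy'
  have ha0 : ((a : ℤ) : ZMod θ) = 0 := by
    rcases mul_eq_zero.mp habc with h3 | h3
    · rcases mul_eq_zero.mp h3 with h4 | h4
      · exact absurd h4 hb0
      · exact absurd h4 hc0
    · push_cast at h3
      exact neg_eq_zero.mp h3
  -- y + z ≡ 0
  have hyz0 : ((y + z : ℤ) : ZMod θ) = 0 := by
    rw [ha]
    push_cast
    rw [ha0, zero_pow hp.out.ne_zero]
  have e1 := sgPhi_zmod_of_add_eq_zero p θ y z hyz0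
  have e2 := sgPhi_zmod_of_eq_zero p θ hodd x y hx0
  rw [hα] at e1
  rw [hγ] at e2
  push_cast at e1 e2
  -- γ is invertible mod θ
  have hγ0 : ((γ : ℤ) : ZMod θ) ≠ 0 := by
    intro h0
    rw [h0, zero_pow hp.out.ne_zero] at e2
    exact pow_ne_zero _ hy0 e2.symm
  apply h2 ((α : ZMod θ) / (γ : ZMod θ))
  rw [div_pow, e1, e2, mul_div_assoc, div_self (pow_ne_zero _ hy0), mul_one]

omit hp hθ in
theorem isCoprime_of_add_pow_eq {a b c : ℤ} {n : ℕ} (hn : 0 < n) (hab : IsCoprime a b)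
    (h : a ^ n + b ^ n = c ^ n) : IsCoprime a c ∧ IsCoprime b c := by
  constructor
  · have h1 : IsCoprime (a ^ n) (b ^ n + a ^ n * 1) := (hab.pow (m := n) (n := n)).add_mul_left_right 1
    rw [mul_one, add_comm, h] at h1
    exact (IsCoprime.pow_iff hn hn).mp h1
  · have h1 : IsCoprime (b ^ n) (a ^ n + b ^ n * 1) :=
      (hab.symm.pow (m := n) (n := n)).add_mul_left_right 1
    rw [mul_one, h] at h1
    exact (IsCoprime.pow_iff hn hn).mp h1

/-- **Sophie Germain's theorem.** -/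
theorem sophieGermain (hp2 : p ≠ 2)
    (h1 : ∀ x y z : ZMod θ, x ^ p + y ^ p + z ^ p = 0 → x * y * z = 0)
    (h2 : ∀ u : ZMod θ, u ^ p ≠ (p : ZMod θ))
    {a b c : ℤ} (hab : IsCoprime a b) (h : a ^ p + b ^ p = c ^ p) : (p : ℤ) ∣ a * b * c := by
  have hodd : Odd p := hp.out.odd_of_ne_two hp2
  have hp0 : 0 < p := hp.out.pos
  have hθ' : Prime (θ : ℤ) := Nat.prime_iff_prime_int.mp hθ.out
  by_contra hnd
  have hpa : ¬ (p : ℤ) ∣ a := fun hd => hnd ((hd.mul_right b).mul_right c)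
  have hpb : ¬ (p : ℤ) ∣ b := fun hd => hnd ((hd.mul_left a).mul_right c)
  have hpc : ¬ (p : ℤ) ∣ -c := fun hd => hnd ((dvd_neg.mp hd).mul_left (a * b))
  obtain ⟨hac, hbc⟩ := isCoprime_of_add_pow_eq hp0 hab h
  have hbc' : IsCoprime b (-c) := hbc.neg_right
  have hca' : IsCoprime (-c) a := hac.symm.neg_left
  have e1 : a ^ p + b ^ p + (-c) ^ p = 0 := by rw [hodd.neg_pow, h]; ring
  have e2 : b ^ p + (-c) ^ p + a ^ p = 0 := by linarith
  have e3 : (-c) ^ p + a ^ p + b ^ p = 0 := by linarith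
  have hz : ((a : ℤ) : ZMod θ) ^ p + ((b : ℤ) : ZMod θ) ^ p + (((-c : ℤ)) : ZMod θ) ^ p = 0 := by
    have := congrArg (Int.cast : ℤ → ZMod θ) e1
    push_cast at this
    push_cast
    exact this
  have hprod := h1 _ _ _ hz
  rw [← Int.cast_mul, ← Int.cast_mul, ZMod.intCast_zmod_eq_zero_iff_dvd] at hprod
  rcases hθ'.dvd_or_dvd hprod with h3 | h3
  · rcases hθ'.dvd_or_dvd h3 with h4 | h4
    · exact sg_key p θ hp2 h1 h2 hab hbc' hca' e1 hpa hpb hpc h4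
    · exact sg_key p θ hp2 h1 h2 hbc' hca' hab e2 hpb hpc hpa h4
  · exact sg_key p θ hp2 h1 h2 hca' hab hbc' e3 hpc hpa hpb h3

/-- First case of Fermat's Last Theorem for `p = 5` (auxiliary prime `11`). -/
theorem caseI_five {a b c : ℤ} (hab : IsCoprime a b) (h : a ^ 5 + b ^ 5 = c ^ 5) :
    (5 : ℤ) ∣ a * b * c := by
  have h5 : Fact (Nat.Prime 5) := ⟨by norm_num⟩
  have h11 : Fact (Nat.Prime 11) := ⟨by norm_num⟩
  have := sophieGermain 5 11 (by norm_num) sg_cond1_five sg_cond2_five hab h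
  exact_mod_cast this

/-- First case of Fermat's Last Theorem for `p = 7` (auxiliary prime `29`). -/
theorem caseI_seven {a b c : ℤ} (hab : IsCoprime a b) (h : a ^ 7 + b ^ 7 = c ^ 7) :
    (7 : ℤ) ∣ a * b * c := by
  have h7 : Fact (Nat.Prime 7) := ⟨by norm_num⟩
  have h29 : Fact (Nat.Prime 29) := ⟨by norm_num⟩
  have := sophieGermain 7 29 (by norm_num) sg_cond1_seven sg_cond2_seven hab h
  exact_mod_cast this

/-- First case of Fermat's Last Theorem for `p = 11` (auxiliary prime `23`). -/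
theorem caseI_eleven {a b c : ℤ} (hab : IsCoprime a b) (h : a ^ 11 + b ^ 11 = c ^ 11) :
    (11 : ℤ) ∣ a * b * c := by
  have h11 : Fact (Nat.Prime 11) := ⟨by norm_num⟩
  have h23 : Fact (Nat.Prime 23) := ⟨by norm_num⟩
  have := sophieGermain 11 23 (by norm_num) sg_cond1_eleven sg_cond2_eleven hab h
  exact_mod_cast this

/-- First case of Fermat's Last Theorem for `p = 13` (auxiliary prime `53`). -/
theorem caseI_thirteen {a b c : ℤ} (hab : IsCoprime a b) (h : a ^ 13 + b ^ 13 = c ^ 13) :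
    (13 : ℤ) ∣ a * b * c := by
  have h13 : Fact (Nat.Prime 13) := ⟨by norm_num⟩
  have h53 : Fact (Nat.Prime 53) := ⟨by norm_num⟩
  have := sophieGermain 13 53 (by norm_num) sg_cond1_thirteen sg_cond2_thirteen hab h
  exact_mod_cast this

end Fermat.Agent.FLTp
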